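import Mathlib
import Fermat.Prelude.Def_FormalHecke_Eigensystem

set_option autoImplicit false

namespace Fermat.Agent.S49_helper65

open FormalHecke

variable {R : Type*} [CommRing R]

theorem eig_prime_mul {e a : ℕ → R} (h : IsEigensystem e a) {p : ℕ} (hp : p.Prime) (n : ℕ) :
    a (p * n) = a p * a n - e p * (if p ∣ n then a (n / p) else 0) := by
  have := h.2 p hp n
  rw [← this]; ring

theorem eig_prime_mul_of_not_dvd {e a : ℕ → R} (h : IsEigensystem e a) {p : ℕ} (hp : p.Prime)
    {n : ℕ} (hn : ¬ p ∣ n) : a (p * n) = a p * a n := by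
  rw [eig_prime_mul h hp, if_neg hn]; ring

theorem eig_prime_mul_of_dvd {e a : ℕ → R} (h : IsEigensystem e a) {p : ℕ} (hp : p.Prime)
    (n : ℕ) : a (p * (p * n)) = a p * a (p * n) - e p * a n := by
  rw [eig_prime_mul h hp (p * n), if_pos (dvd_mul_right p n),
    Nat.mul_div_cancel_left n hp.pos]

theorem eig_prime_pow {e a : ℕ → R} (h : IsEigensystem e a) {p : ℕ} (hp : p.Prime) (r : ℕ) :
    a (p ^ (r + 2)) = a p * a (p ^ (r + 1)) - e p * a (p ^ r) := by
  have := eig_prime_mul_of_dvd h hp (p ^ r)
  rw [show p ^ (r + 2) = p * (p * p ^ r) by ring, show p ^ (r + 1) = p * p ^ r by ring]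
  exact this

theorem eig_pow_mul {e a : ℕ → R} (h : IsEigensystem e a) {p : ℕ} (hp : p.Prime)
    {m : ℕ} (hm : ¬ p ∣ m) : ∀ k : ℕ, a (p ^ k * m) = a (p ^ k) * a m := by
  have key : ∀ k : ℕ, a (p ^ k * m) = a (p ^ k) * a m ∧
      a (p ^ (k + 1) * m) = a (p ^ (k + 1)) * a m := by
    intro k
    induction k with
    | zero =>
      refine ⟨by simp [h.1], ?_⟩
      simp only [zero_add, pow_one]
      exact eig_prime_mul_of_not_dvd h hp hm
    | succ k ih =>
      refine ⟨ih.2, ?_⟩
      have h1 : p ^ (k + 1 + 1) * m = p * (p * (p ^ k * m)) := by ring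
      rw [h1, eig_prime_mul_of_dvd h hp, ← mul_assoc p (p ^ k) m, ← pow_succ' p k, ih.1, ih.2,
        eig_prime_pow h hp k]
      ring
  exact fun k => (key k).1

theorem eig_mul_of_coprime {e a : ℕ → R} (h : IsEigensystem e a) :
    ∀ m n : ℕ, m.Coprime n → a (m * n) = a m * a n := by
  intro m
  induction m using Nat.strong_induction_on with
  | _ m ih =>
    intro n hmn
    rcases Nat.lt_or_ge m 2 with hm | hm
    · interval_cases m
      · have : n = 1 := by simpa using hmn
        subst this
        simp [h.1]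
      · simp [h.1]
    · set p := m.minFac with hpdef
      have hp : p.Prime := Nat.minFac_prime (by omega)
      have hpm : p ∣ m := Nat.minFac_dvd m
      obtain ⟨k, m', hm', hmeq⟩ := Nat.exists_eq_pow_mul_and_not_dvd (by omega : m ≠ 0) p hp.ne_one
      have hk : k ≠ 0 := by
        rintro rfl
        apply hm'
        have : m = m' := by simpa using hmeq
        rw [← this]; exact hpm
      have hm'pos : 0 < m' := by
        rcases Nat.eq_zero_or_pos m' with h0 | h0
        · exfalso; apply hm'; rw [h0]; exact dvd_zero p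
        · exact h0
      have hlt : m' < m := by
        rw [hmeq]
        have : 2 ≤ p ^ k := by
          calc 2 ≤ p := hp.two_le
            _ = p ^ 1 := (pow_one p).symm
            _ ≤ p ^ k := Nat.pow_le_pow_right hp.pos (Nat.one_le_iff_ne_zero.mpr hk)
        nlinarith
      have hcop' : m'.Coprime n := by
        apply Nat.Coprime.coprime_dvd_left _ hmn
        rw [hmeq]; exact dvd_mul_left m' (p ^ k)
      have hpn : ¬ p ∣ n := by
        intro hpn
        have := Nat.dvd_gcd hpm hpn
        rw [hmn] at this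
        exact hp.one_lt.ne' (Nat.dvd_one.mp this)
      have hpm'n : ¬ p ∣ m' * n := by
        intro hd
        rcases (Nat.Prime.dvd_mul hp).mp hd with h1 | h1
        · exact hm' h1
        · exact hpn h1
      rw [hmeq, mul_assoc, eig_pow_mul h hp hpm'n k, ih m' hlt n hcop', eig_pow_mul h hp hm' k]
      ring

theorem isRecursive_of_isEigensystem {e a : ℕ → R} (h : IsEigensystem e a) : IsRecursive e a :=
  ⟨h.1, eig_mul_of_coprime h, fun _ r hp => eig_prime_pow h hp r⟩

end Fermat.Agent.S49_helper65
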