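import Mathlib
import Fermat.Prelude.Def_FLTPrelim_Modularity
import Fermat.Prelude.Def_ModularForm_HeckeOperatorForms
import Fermat.Prelude.Def_FormalHecke_Eigensystem
import Fermat.Prelude.Thm_ModularFormClass_qCoeff_heckeT
import Fermat.Prelude.Thm_ModularFormClass_qCoeff_heckeU
import Fermat.Prelude.Thm_CongruenceSubgroup_one_mem_strictPeriods_Gamma0
import Fermat.Agent.S49_helper65.Recursive

set_option autoImplicit false

namespace Fermat.Agent.S49_helper65

open CongruenceSubgroup ModularFormClass UpperHalfPlane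

variable {N : ℕ}

theorem qCoeff_smul_cusp (c : ℂ) (g : CuspForm (Gamma0 N) 2) (n : ℕ) :
    qCoeff (c • g : CuspForm (Gamma0 N) 2) n = c * qCoeff g n := by
  unfold qCoeff
  have h1 : (⇑(c • g : CuspForm (Gamma0 N) 2) : ℍ → ℂ) = c • ⇑g := rfl
  rw [h1, ModularForm.qExpansion_smul one_pos (one_mem_strictPeriods_Gamma0 N) c g]
  simp

theorem qCoeff_zero_cusp (g : CuspForm (Gamma0 N) 2) : qCoeff g 0 = 0 :=
  CuspFormClass.qExpansion_coeff_zero g one_pos (one_mem_strictPeriods_Gamma0 N)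

theorem cusp_eq_zero_of_qCoeff (g : CuspForm (Gamma0 N) 2) (h : ∀ n, qCoeff g n = 0) : g = 0 := by
  have hΓ := one_mem_strictPeriods_Gamma0 N
  have : Fact (IsCusp OnePoint.infty (Subgroup.map (Matrix.SpecialLinearGroup.mapGL ℝ) (Gamma0 N))) :=
    ⟨Subgroup.isCusp_of_mem_strictPeriods one_pos hΓ⟩
  have hq : qExpansion 1 (⇑g : ℍ → ℂ) = 0 := by
    ext n
    simpa [qCoeff] using h n
  have := (UpperHalfPlane.qExpansion_eq_zero_iff (h := 1) one_pos
    (SlashInvariantFormClass.periodic_comp_ofComplex g hΓ) (ModularFormClass.holo g)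
    (ModularFormClass.bdd_at_infty g)).mp hq
  exact DFunLike.coe_injective this

theorem qCoeff_heckeTLin (g : CuspForm (Gamma0 N) 2) {ℓ : ℕ} (hℓ : ℓ.Prime) (hℓN : ¬ ℓ ∣ N)
    (n : ℕ) :
    qCoeff (CuspForm.heckeTLin 2 hℓ hℓN g) n =
      qCoeff g (n * ℓ) + if ℓ ∣ n then (ℓ : ℂ) * qCoeff g (n / ℓ) else 0 := by
  rw [CuspForm.coe_heckeTLin_apply,
    ModularFormClass.qCoeff_heckeT g (one_mem_strictPeriods_Gamma0 N) hℓ.ne_zero n,
    ModularForm.coeffHeckeT_apply]
  norm_num

theorem qCoeff_heckeULin [NeZero N] (g : CuspForm (Gamma0 N) 2) {q : ℕ} (hq : q.Prime)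
    (hqN : q ∣ N) (n : ℕ) :
    qCoeff (CuspForm.heckeULin 2 hqN g) n = qCoeff g (n * q) := by
  rw [CuspForm.coe_heckeULin_apply,
    ModularFormClass.qCoeff_heckeU g (one_mem_strictPeriods_Gamma0 N) hq.ne_zero n,
    ModularForm.coeffHeckeU_apply]

/-- The level-`N` weight-2 "character" used for the Hecke recursion of `q`-coefficients. -/
noncomputable def levelChar (N : ℕ) (p : ℕ) : ℂ := if p ∣ N then 0 else (p : ℂ)

/-- A simultaneous eigenvector of all `T_ℓ` and `U_q` has `q`-coefficients satisfying the formal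
Hecke relations up to the factor `a₁`. -/
theorem qCoeff_relation_of_eigenvector [NeZero N] (g : CuspForm (Gamma0 N) 2) (θ : ℕ → ℂ)
    (hT : ∀ (ℓ : ℕ) (hℓ : ℓ.Prime) (hℓN : ¬ ℓ ∣ N), CuspForm.heckeTLin 2 hℓ hℓN g = θ ℓ • g)
    (hU : ∀ (q : ℕ) (_ : q.Prime) (hqN : q ∣ N), CuspForm.heckeULin 2 hqN g = θ q • g)
    {p : ℕ} (hp : p.Prime) (n : ℕ) :
    qCoeff g (p * n) + levelChar N p * (if p ∣ n then qCoeff g (n / p) else 0) =
      θ p * qCoeff g n := by
  by_cases hpN : p ∣ N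
  · have := qCoeff_heckeULin g hp hpN n
    rw [hU p hp hpN, qCoeff_smul_cusp] at this
    rw [levelChar, if_pos hpN, zero_mul, add_zero, mul_comm p n, ← this]
  · have := qCoeff_heckeTLin g hp hpN n
    rw [hT p hp hpN, qCoeff_smul_cusp] at this
    rw [levelChar, if_neg hpN, mul_comm p n, this]
    split_ifs <;> ring

theorem qCoeff_eq_zero_of_one [NeZero N] (g : CuspForm (Gamma0 N) 2) (θ : ℕ → ℂ)
    (hT : ∀ (ℓ : ℕ) (hℓ : ℓ.Prime) (hℓN : ¬ ℓ ∣ N), CuspForm.heckeTLin 2 hℓ hℓN g = θ ℓ • g)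
    (hU : ∀ (q : ℕ) (_ : q.Prime) (hqN : q ∣ N), CuspForm.heckeULin 2 hqN g = θ q • g)
    (h1 : qCoeff g 1 = 0) : ∀ n, qCoeff g n = 0 := by
  intro n
  induction n using Nat.strong_induction_on with
  | _ n ih =>
    rcases Nat.lt_or_ge n 2 with hn | hn
    · interval_cases n
      · exact qCoeff_zero_cusp g
      · exact h1
    · set p := n.minFac with hpdef
      have hp : p.Prime := Nat.minFac_prime (by omega)
      obtain ⟨m, hm⟩ : p ∣ n := Nat.minFac_dvd n
      have hmpos : 0 < m := by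
        rcases Nat.eq_zero_or_pos m with h0 | h0
        · rw [h0, mul_zero] at hm; omega
        · exact h0
      have hmlt : m < n := by
        rw [hm]; nlinarith [hp.two_le]
      have hrel := qCoeff_relation_of_eigenvector g θ hT hU hp m
      rw [ih m hmlt, mul_zero] at hrel
      have hdiv : (if p ∣ m then qCoeff g (m / p) else 0) = 0 := by
        split_ifs with hd
        · exact ih _ (lt_of_le_of_lt (Nat.div_le_self m p) hmlt)
        · rfl
      rw [hdiv, mul_zero, add_zero] at hrel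
      rw [hm]; exact hrel

/-- A nonzero simultaneous eigenvector of all `T_ℓ` (`ℓ ∤ N`) and `U_q` (`q ∣ N`) can be normalised to
a normalised eigenform whose prime-index coefficients are the eigenvalues. -/
theorem exists_normalizedEigenform_of_eigenvector [NeZero N] (g : CuspForm (Gamma0 N) 2)
    (hg : g ≠ 0) (θ : ℕ → ℂ)
    (hT : ∀ (ℓ : ℕ) (hℓ : ℓ.Prime) (hℓN : ¬ ℓ ∣ N), CuspForm.heckeTLin 2 hℓ hℓN g = θ ℓ • g)
    (hU : ∀ (q : ℕ) (_ : q.Prime) (hqN : q ∣ N), CuspForm.heckeULin 2 hqN g = θ q • g) :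
    ∃ f : CuspForm (Gamma0 N) 2, f.IsNormalizedEigenform ∧
      ∀ p : ℕ, p.Prime → qCoeff f p = θ p := by
  have hb1 : qCoeff g 1 ≠ 0 := fun h1 =>
    hg (cusp_eq_zero_of_qCoeff g (qCoeff_eq_zero_of_one g θ hT hU h1))
  set f : CuspForm (Gamma0 N) 2 := (qCoeff g 1)⁻¹ • g with hf
  have hc : ∀ n, qCoeff f n = (qCoeff g 1)⁻¹ * qCoeff g n := fun n => qCoeff_smul_cusp _ g n
  have hc1 : qCoeff f 1 = 1 := by rw [hc, inv_mul_cancel₀ hb1]
  have hrel : ∀ {p : ℕ} (_ : p.Prime) (n : ℕ),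
      qCoeff f (p * n) + levelChar N p * (if p ∣ n then qCoeff f (n / p) else 0) =
        θ p * qCoeff f n := by
    intro p hp n
    have := qCoeff_relation_of_eigenvector g θ hT hU hp n
    simp only [hc]
    by_cases hd : p ∣ n
    · simp only [if_pos hd] at this ⊢
      linear_combination (qCoeff g 1)⁻¹ * this
    · simp only [if_neg hd] at this ⊢
      linear_combination (qCoeff g 1)⁻¹ * this
  have hθ : ∀ p : ℕ, p.Prime → qCoeff f p = θ p := by
    intro p hp
    have := hrel hp 1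
    rw [mul_one, if_neg (by simpa using hp.ne_one), mul_zero, add_zero, hc1, mul_one] at this
    exact this
  have heig : FormalHecke.IsEigensystem (levelChar N) (fun n => qCoeff f n) := by
    refine ⟨hc1, fun ℓ hℓ n => ?_⟩
    simp only
    rw [hrel hℓ n, hθ ℓ hℓ]
  obtain ⟨_, hmul, hpow⟩ := isRecursive_of_isEigensystem heig
  refine ⟨f, ⟨hc1, hmul, ?_, ?_⟩, hθ⟩
  · intro p r hp hpN
    have := hpow p r hp
    simp only [levelChar, if_neg hpN] at this
    exact this
  · intro p r hp hpN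
    have := hpow p r hp
    simp only [levelChar, if_pos hpN, zero_mul, sub_zero] at this
    exact this

end Fermat.Agent.S49_helper65
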