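import Mathlib

set_option autoImplicit false

namespace Fermat.Agent.S49_helper65

open Module

section Stable

variable {V : Type*} [AddCommGroup V] [Module ℂ V]
variable {T : Type*} [CommRing T] (φ : T →+* Module.End ℂ V)

/-- `W` is stable under all operators `φ t`. -/
def StableUnder (W : Submodule ℂ V) : Prop := ∀ t : T, ∀ w ∈ W, φ t w ∈ W

/-- annihilator in `T` of a subspace -/
def annOf (W : Submodule ℂ V) : Ideal T where
  carrier := {t | ∀ w ∈ W, φ t w = 0}
  add_mem' := by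
    intro a b ha hb w hw
    have ha : ∀ w ∈ W, φ a w = 0 := ha
    have hb : ∀ w ∈ W, φ b w = 0 := hb
    rw [map_add, LinearMap.add_apply, ha w hw, hb w hw, add_zero]
  zero_mem' := by
    intro w _
    simp
  smul_mem' := by
    intro c x hx w hw
    have hx : ∀ w ∈ W, φ x w = 0 := hx
    rw [smul_eq_mul, map_mul, Module.End.mul_apply, hx w hw, map_zero]

theorem mem_annOf {W : Submodule ℂ V} {t : T} : t ∈ annOf φ W ↔ ∀ w ∈ W, φ t w = 0 := Iff.rfl

theorem phi_comm (s t : T) (v : V) : φ s (φ t v) = φ t (φ s v) := by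
  rw [← Module.End.mul_apply, ← Module.End.mul_apply, ← map_mul, ← map_mul, mul_comm]

end Stable

section Main

variable {V : Type*} [AddCommGroup V] [Module ℂ V] [FiniteDimensional ℂ V]
variable {T : Type*} [CommRing T] (φ : T →+* Module.End ℂ V)

/-- Key step: a minimal stable subspace whose annihilator lies in the prime `𝔪` is acted on by
scalars. -/
theorem scalar_on_minimal (𝔪 : Ideal T) [h𝔪 : 𝔪.IsPrime] (W₀ : Submodule ℂ V)
    (hst : StableUnder φ W₀) (hann : annOf φ W₀ ≤ 𝔪)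
    (hmin : ∀ W : Submodule ℂ V, StableUnder φ W → annOf φ W ≤ 𝔪 → ¬ W < W₀) (t : T) :
    ∃ c : ℂ, ∀ w ∈ W₀, φ t w = c • w := by
  have hne : W₀ ≠ ⊥ := by
    rintro rfl
    apply h𝔪.ne_top
    rw [Ideal.eq_top_iff_one]
    apply hann
    intro w hw
    rw [Submodule.mem_bot] at hw
    rw [hw, map_zero]
  have : Nontrivial W₀ := Submodule.nontrivial_iff_ne_bot.mpr hne
  set f : Module.End ℂ W₀ := (φ t).restrict (hst t) with hf
  obtain ⟨μ, hμ⟩ := Module.End.exists_eigenvalue f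
  obtain ⟨v, hv⟩ := hμ.exists_hasEigenvector
  refine ⟨μ, ?_⟩
  set D : Module.End ℂ V := φ t - μ • (1 : Module.End ℂ V) with hD
  have hDapply : ∀ x, D x = φ t x - μ • x := by
    intro x; simp [hD]
  have hDcomm : ∀ s : T, ∀ x, D (φ s x) = φ s (D x) := by
    intro s x
    rw [hDapply, hDapply, map_sub, map_smul, phi_comm]
  set W₁ : Submodule ℂ V := W₀ ⊓ LinearMap.ker D with hW₁
  set W₂ : Submodule ℂ V := Submodule.map D W₀ with hW₂
  have hW₁le : W₁ ≤ W₀ := inf_le_left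
  have hDW₀ : ∀ w ∈ W₀, D w ∈ W₀ := by
    intro w hw
    rw [hDapply]
    exact W₀.sub_mem (hst t w hw) (W₀.smul_mem μ hw)
  have hW₂le : W₂ ≤ W₀ := by
    rintro _ ⟨w, hw, rfl⟩
    exact hDW₀ w hw
  have hst₁ : StableUnder φ W₁ := by
    intro s w hw
    rw [hW₁, Submodule.mem_inf, LinearMap.mem_ker] at hw ⊢
    exact ⟨hst s w hw.1, by rw [hDcomm, hw.2, map_zero]⟩
  have hst₂ : StableUnder φ W₂ := by
    rintro s _ ⟨w, hw, rfl⟩
    exact ⟨φ s w, hst s w hw, hDcomm s w⟩
  -- W₂ ≠ W₀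
  have hW₂ne : W₂ ≠ W₀ := by
    intro heq
    set h : Module.End ℂ W₀ := f - μ • (1 : Module.End ℂ W₀) with hh
    have hhv : h v = 0 := by
      have := hv.apply_eq_smul
      simp [hh, this]
    have hninj : ¬ Function.Injective h := by
      intro hinj
      exact hv.2 (hinj (by rw [hhv, map_zero]))
    have hnsurj : ¬ Function.Surjective h := fun hs =>
      hninj (LinearMap.injective_iff_surjective.mpr hs)
    apply hnsurj
    intro w
    have hw : (w : V) ∈ W₂ := by rw [heq]; exact w.2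
    obtain ⟨w', hw', hw'eq⟩ := hw
    refine ⟨⟨w', hw'⟩, ?_⟩
    apply Subtype.ext
    rw [← hw'eq, hDapply]
    simp [hh, hf, LinearMap.restrict_apply]
  have hW₂lt : W₂ < W₀ := lt_of_le_of_ne hW₂le hW₂ne
  by_contra hcon
  have hW₁ne : W₁ ≠ W₀ := by
    intro heq
    apply hcon
    intro w hw
    have : w ∈ W₁ := by rw [heq]; exact hw
    rw [hW₁, Submodule.mem_inf, LinearMap.mem_ker, hDapply] at this
    exact sub_eq_zero.mp this.2
  have hW₁lt : W₁ < W₀ := lt_of_le_of_ne hW₁le hW₁ne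
  have h1 : ¬ annOf φ W₁ ≤ 𝔪 := fun hle => hmin W₁ hst₁ hle hW₁lt
  have h2 : ¬ annOf φ W₂ ≤ 𝔪 := fun hle => hmin W₂ hst₂ hle hW₂lt
  obtain ⟨s₁, hs₁, hs₁'⟩ := Set.not_subset.mp h1
  obtain ⟨s₂, hs₂, hs₂'⟩ := Set.not_subset.mp h2
  have hprod : s₁ * s₂ ∈ annOf φ W₀ := by
    intro w hw
    rw [map_mul, Module.End.mul_apply]
    apply hs₁
    rw [hW₁, Submodule.mem_inf, LinearMap.mem_ker]
    refine ⟨hst s₂ w hw, ?_⟩
    rw [hDcomm]
    exact hs₂ _ ⟨w, hw, rfl⟩
  rcases h𝔪.mem_or_mem (hann hprod) with h | h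
  · exact hs₁' h
  · exact hs₂' h

/-- Existence of a common eigenvector whose eigencharacter has kernel inside a given prime. -/
theorem exists_eigenvector_ker_le (hφ : Function.Injective φ) (𝔪 : Ideal T) [h𝔪 : 𝔪.IsPrime] :
    ∃ (g : V) (θ : T →+* ℂ), g ≠ 0 ∧ (∀ t, φ t g = θ t • g) ∧ RingHom.ker θ ≤ 𝔪 := by
  classical
  let S : Set (Submodule ℂ V) := {W | StableUnder φ W ∧ annOf φ W ≤ 𝔪}
  have hS : S.Nonempty := by
    refine ⟨⊤, fun _ _ _ => Submodule.mem_top, ?_⟩
    intro t ht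
    have : φ t = 0 := by
      ext v
      exact ht v Submodule.mem_top
    have : t = 0 := hφ (by rw [this, map_zero])
    rw [this]; exact 𝔪.zero_mem
  obtain ⟨W₀, ⟨hst, hann⟩, hmin⟩ :=
    (wellFounded_lt (α := Submodule ℂ V)).has_min S hS
  have hmin' : ∀ W : Submodule ℂ V, StableUnder φ W → annOf φ W ≤ 𝔪 → ¬ W < W₀ :=
    fun W h1 h2 => hmin W ⟨h1, h2⟩
  have hsc := scalar_on_minimal φ 𝔪 W₀ hst hann hmin'
  have hne : W₀ ≠ ⊥ := by
    rintro rfl
    apply h𝔪.ne_top
    rw [Ideal.eq_top_iff_one]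
    apply hann
    intro w hw
    rw [Submodule.mem_bot] at hw
    rw [hw, map_zero]
  obtain ⟨g, hgW, hg0⟩ := Submodule.exists_mem_ne_zero_of_ne_bot hne
  choose θ₀ hθ₀ using hsc
  have huniq : ∀ c c' : ℂ, c • g = c' • g → c = c' := by
    intro c c' h
    have : (c - c') • g = 0 := by rw [sub_smul, h, sub_self]
    rcases smul_eq_zero.mp this with h' | h'
    · exact sub_eq_zero.mp h'
    · exact absurd h' hg0
  let θ : T →+* ℂ :=
    { toFun := θ₀
      map_one' := by
        apply huniq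
        rw [← hθ₀ 1 g hgW, map_one, Module.End.one_apply, one_smul]
      map_mul' := by
        intro s t
        apply huniq
        rw [← hθ₀ (s * t) g hgW, map_mul, Module.End.mul_apply, hθ₀ t g hgW, map_smul,
          hθ₀ s g hgW, smul_smul, mul_comm]
      map_zero' := by
        apply huniq
        rw [← hθ₀ 0 g hgW, map_zero, LinearMap.zero_apply, zero_smul]
      map_add' := by
        intro s t
        apply huniq
        rw [← hθ₀ (s + t) g hgW, map_add, LinearMap.add_apply, hθ₀ s g hgW, hθ₀ t g hgW,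
          add_smul] }
  refine ⟨g, θ, hg0, fun t => hθ₀ t g hgW, ?_⟩
  intro t ht
  apply hann
  intro w hw
  have : θ₀ t = 0 := ht
  rw [hθ₀ t w hw, this, zero_smul]

/-- Abstract Deligne–Serre lifting: for a commutative ring `T`, integral over `ℤ`, acting
faithfully on a finite-dimensional complex vector space, and a maximal ideal `𝔪` of `T`, there
is a common eigenvector whose eigencharacter takes values in the algebraic integers and a
maximal ideal of the algebraic integers pulling back to `𝔪`. -/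
theorem abstract_deligne_serre (hφ : Function.Injective φ) (hint : ∀ t : T, IsIntegral ℤ t)
    (𝔪 : Ideal T) [h𝔪 : 𝔪.IsMaximal] :
    ∃ (g : V) (θ : T →+* integralClosure ℤ ℂ) (𝔪' : Ideal (integralClosure ℤ ℂ)),
      g ≠ 0 ∧ (∀ t, φ t g = ((θ t : integralClosure ℤ ℂ) : ℂ) • g) ∧
      𝔪'.IsMaximal ∧ 𝔪'.comap θ = 𝔪 := by
  obtain ⟨g, θ₀, hg0, hθ₀, hker⟩ := exists_eigenvector_ker_le φ hφ 𝔪
  have hθint : ∀ t, θ₀ t ∈ integralClosure ℤ ℂ := by
    intro t
    exact IsIntegral.map_of_comp_eq (RingHom.id ℤ) θ₀ (RingHom.ext_int _ _) (hint t)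
  let θ : T →+* integralClosure ℤ ℂ := θ₀.codRestrict (integralClosure ℤ ℂ) hθint
  have hθcoe : ∀ t, ((θ t : integralClosure ℤ ℂ) : ℂ) = θ₀ t := fun _ => rfl
  let _ : Algebra T (integralClosure ℤ ℂ) := θ.toAlgebra
  have : IsScalarTower ℤ T (integralClosure ℤ ℂ) :=
    IsScalarTower.of_algebraMap_eq' (RingHom.ext_int _ _)
  have : Algebra.IsIntegral T (integralClosure ℤ ℂ) :=
    ⟨fun x => IsIntegral.tower_top (integralClosure.isIntegral x)⟩
  have hker' : RingHom.ker (algebraMap T (integralClosure ℤ ℂ)) ≤ 𝔪 := by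
    intro t ht
    apply hker
    rw [RingHom.mem_ker] at ht ⊢
    have : θ t = 0 := ht
    rw [← hθcoe, this]; rfl
  obtain ⟨𝔪', h𝔪', hcomap⟩ := Ideal.exists_ideal_over_maximal_of_isIntegral 𝔪 hker'
  exact ⟨g, θ, 𝔪', hg0, fun t => by rw [hθcoe]; exact hθ₀ t, h𝔪', hcomap⟩

end Main

end Fermat.Agent.S49_helper65
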