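import Mathlib
import Fermat.Prelude.Def_CuspForm_HeckeAlgebra
import Fermat.Prelude.Def_CuspForm_IntegralLattice
import Fermat.Prelude.Def_CuspForm_IntegralStructure
import Fermat.Prelude.Thm_CuspForm_intLattice_fg
import Fermat.Prelude.Thm_CuspForm_mem_intLattice_of_mem_heckeAlgebra
import Fermat.Prelude.Thm_CongruenceSubgroup_one_mem_strictPeriods_Gamma0
import Fermat.Agent.S49_helper65.Eigenform

set_option autoImplicit false

namespace Fermat.Agent.S49_helper65

open CongruenceSubgroup ModularFormClass UpperHalfPlane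

variable {N : ℕ}

theorem qCoeff_add_cusp (f g : CuspForm (Gamma0 N) 2) (n : ℕ) :
    qCoeff (f + g : CuspForm (Gamma0 N) 2) n = qCoeff f n + qCoeff g n := by
  unfold qCoeff
  have h1 : (⇑(f + g : CuspForm (Gamma0 N) 2) : ℍ → ℂ) = ⇑f + ⇑g := rfl
  rw [h1, ModularForm.qExpansion_add one_pos (one_mem_strictPeriods_Gamma0 N) f g]
  simp

theorem qCoeff_zero_form (n : ℕ) : qCoeff (0 : CuspForm (Gamma0 N) 2) n = 0 := by
  unfold qCoeff
  have h1 : (⇑(0 : CuspForm (Gamma0 N) 2) : ℍ → ℂ) = 0 := rfl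
  rw [h1, qExpansion_zero]
  simp

theorem qCoeff_zsmul_cusp (m : ℤ) (f : CuspForm (Gamma0 N) 2) (n : ℕ) :
    qCoeff (m • f : CuspForm (Gamma0 N) 2) n = (m : ℂ) * qCoeff f n := by
  rw [← Int.cast_smul_eq_zsmul ℂ m f, qCoeff_smul_cusp]

theorem qCoeff_neg_cusp (f : CuspForm (Gamma0 N) 2) (n : ℕ) :
    qCoeff (-f : CuspForm (Gamma0 N) 2) n = - qCoeff f n := by
  have : (-f : CuspForm (Gamma0 N) 2) = (-1 : ℂ) • f := by simp
  rw [this, qCoeff_smul_cusp]; ring

theorem qCoeff_sub_cusp (f g : CuspForm (Gamma0 N) 2) (n : ℕ) :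
    qCoeff (f - g : CuspForm (Gamma0 N) 2) n = qCoeff f n - qCoeff g n := by
  rw [sub_eq_add_neg, qCoeff_add_cusp, qCoeff_neg_cusp, sub_eq_add_neg]

/-- forms with integral `q`-coefficients -/
def IntCoeffs (f : CuspForm (Gamma0 N) 2) : Prop := ∀ n : ℕ, ∃ m : ℤ, qCoeff f n = (m : ℂ)

theorem mem_qIntegralSet_iff (f : CuspForm (Gamma0 N) 2) :
    f ∈ CuspForm.qIntegralSet N ↔ IntCoeffs f := by
  unfold CuspForm.qIntegralSet IntCoeffs
  simp only [Set.mem_ofPred_eq, Subring.mem_bot]
  constructor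
  · intro h n
    obtain ⟨m, hm⟩ := h n
    exact ⟨m, hm.symm⟩
  · intro h n
    obtain ⟨m, hm⟩ := h n
    exact ⟨m, hm.symm⟩

theorem mem_intLattice_iff (f : CuspForm (Gamma0 N) 2) :
    f ∈ CuspForm.intLattice N 2 ↔ IntCoeffs f := by
  constructor
  · intro hf
    unfold CuspForm.intLattice at hf
    induction hf using Submodule.span_induction with
    | mem x hx => exact hx
    | zero => exact fun n => ⟨0, by rw [qCoeff_zero_form]; simp⟩
    | add x y _ _ hx hy =>
      intro n
      obtain ⟨a, ha⟩ := hx n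
      obtain ⟨b, hb⟩ := hy n
      exact ⟨a + b, by rw [qCoeff_add_cusp, ha, hb]; push_cast; ring⟩
    | smul c x _ hx =>
      intro n
      obtain ⟨a, ha⟩ := hx n
      exact ⟨c * a, by rw [qCoeff_zsmul_cusp, ha]; push_cast; ring⟩
  · intro hf
    exact Submodule.subset_span hf

theorem span_intLattice_eq_top (h : CuspForm.HasIntegralBasis N) :
    Submodule.span ℂ (CuspForm.intLattice N 2 : Set (CuspForm (Gamma0 N) 2)) = ⊤ := by
  rw [eq_top_iff, ← h]
  apply Submodule.span_mono
  intro f hf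
  exact (mem_intLattice_iff f).mpr ((mem_qIntegralSet_iff f).mp hf)

theorem finiteDimensional_of_hasIntegralBasis [NeZero N] (h : CuspForm.HasIntegralBasis N) :
    FiniteDimensional ℂ (CuspForm (Gamma0 N) 2) := by
  obtain ⟨S, hS⟩ := CuspForm.intLattice_fg N 2
  refine ⟨⟨S, ?_⟩⟩
  rw [eq_top_iff, ← span_intLattice_eq_top h]
  apply Submodule.span_le.mpr
  intro f hf
  have hf' : f ∈ Submodule.span ℤ (S : Set (CuspForm (Gamma0 N) 2)) := by rw [hS]; exact hf
  exact Submodule.span_le_restrictScalars ℤ ℂ _ hf'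

/-- A `ℂ`-linear endomorphism vanishing on the integral lattice vanishes. -/
theorem end_eq_zero_of_lattice (h : CuspForm.HasIntegralBasis N)
    (t : Module.End ℂ (CuspForm (Gamma0 N) 2))
    (ht : ∀ f ∈ CuspForm.intLattice N 2, t f = 0) : t = 0 := by
  have : Submodule.span ℂ (CuspForm.intLattice N 2 : Set (CuspForm (Gamma0 N) 2)) ≤
      LinearMap.ker t := by
    apply Submodule.span_le.mpr
    intro f hf
    exact LinearMap.mem_ker.mpr (ht f hf)
  rw [span_intLattice_eq_top h, top_le_iff] at this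
  exact LinearMap.ker_eq_top.mp this

section Finite

variable [NeZero N]

/-- restriction of Hecke operators to the lattice, as an additive map -/
noncomputable def restrictHom :
    CuspForm.heckeAlgebra N 2 ∅ →+ Module.End ℤ (CuspForm.intLattice N 2) where
  toFun t := ((t : Module.End ℂ (CuspForm (Gamma0 N) 2)).restrictScalars ℤ).restrict
    (fun _ hx => CuspForm.mem_intLattice_of_mem_heckeAlgebra (by norm_num) t.2 hx)
  map_zero' := by
    apply LinearMap.ext
    intro x
    apply Subtype.ext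
    rfl
  map_add' s t := by
    apply LinearMap.ext
    intro x
    apply Subtype.ext
    rfl

theorem restrictHom_apply (t : CuspForm.heckeAlgebra N 2 ∅) (x : CuspForm.intLattice N 2) :
    ((restrictHom t x : CuspForm.intLattice N 2) : CuspForm (Gamma0 N) 2) =
      (t : Module.End ℂ (CuspForm (Gamma0 N) 2)) x := rfl

theorem restrictHom_injective (h : CuspForm.HasIntegralBasis N) :
    Function.Injective (restrictHom (N := N)) := by
  rw [injective_iff_map_eq_zero]
  intro t ht
  apply Subtype.ext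
  apply end_eq_zero_of_lattice h
  intro f hf
  have := restrictHom_apply t ⟨f, hf⟩
  rw [ht] at this
  exact this.symm

theorem heckeAlgebra_finite (h : CuspForm.HasIntegralBasis N) :
    Module.Finite ℤ (CuspForm.heckeAlgebra N 2 ∅) := by
  have : Module.Finite ℤ (CuspForm.intLattice N 2) :=
    Module.Finite.iff_fg.mpr (CuspForm.intLattice_fg N 2)
  have : IsNoetherian ℤ (CuspForm.intLattice N 2) := inferInstance
  have : IsNoetherian ℤ (Module.End ℤ (CuspForm.intLattice N 2)) := isNoetherian_linearMap _ _ _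
  exact Module.Finite.of_injective (restrictHom (N := N)).toIntLinearMap (restrictHom_injective h)

theorem heckeAlgebra_isIntegral (h : CuspForm.HasIntegralBasis N)
    (t : CuspForm.heckeAlgebra N 2 ∅) :
    ∃ p : Polynomial ℤ, p.Monic ∧ Polynomial.eval₂ (Int.castRingHom _) t p = 0 := by
  have := heckeAlgebra_finite h
  obtain ⟨p, hp, hpt⟩ := IsIntegral.of_finite ℤ t
  refine ⟨p, hp, ?_⟩
  rw [← hpt]
  congr 1

end Finite

end Fermat.Agent.S49_helper65
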