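import Mathlib
import Fermat.Prelude.Def_CuspForm_HeckeAlgebra
import Fermat.Prelude.Def_CuspForm_IntegralLattice
import Fermat.Prelude.Def_FormalHecke_Eigensystem
import Fermat.Prelude.Def_ModularForm_EisensteinChiNegThree
import Fermat.Agent.S49_helper65.Lattice

set_option autoImplicit false

namespace Fermat.Agent.S49_helper65

open CongruenceSubgroup ModularFormClass UpperHalfPlane EisensteinWeightOne

variable {N : ℕ}

theorem three_dvd_sub_chiNegThree (n : ℕ) : (3 : ℤ) ∣ (n : ℤ) - chiNegThree n := by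
  unfold chiNegThree
  split_ifs <;> omega

/-- The Eisenstein series `E₁(χ₋₃)` is congruent to `1` modulo `3`. -/
theorem bridgeProduct_coeff_congr (a : ℕ → ℤ) (n : ℕ) :
    (3 : ℤ) ∣ (bridgeProduct a).coeff n - a n := by
  set E' : PowerSeries ℤ := PowerSeries.mk fun n => if n = 0 then 0 else 2 * sigmaChi n with hE'
  have hE : e1Chi3In ℤ = 1 + PowerSeries.C (3 : ℤ) * E' := by
    ext k
    simp only [e1Chi3In, e1Chi3, PowerSeries.coeff_map, PowerSeries.coeff_mk, map_add,
      PowerSeries.coeff_one, PowerSeries.coeff_C_mul, hE', Int.coe_castRingHom, Int.cast_id]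
    split_ifs <;> ring
  have : (bridgeProduct a).coeff n - a n = 3 * (PowerSeries.mk a * E').coeff n := by
    unfold bridgeProduct
    rw [hE, mul_add, mul_one, map_add, PowerSeries.coeff_mk, mul_left_comm,
      PowerSeries.coeff_C_mul]
    ring
  rw [this]
  exact dvd_mul_right _ _

/-- all `q`-coefficients are (three times an integer) -/
def ThreeDvd (h : CuspForm (Gamma0 N) 2) : Prop := ∀ n : ℕ, ∃ m : ℤ, qCoeff h n = 3 * (m : ℂ)

theorem threeDvd_iff (h : CuspForm (Gamma0 N) 2) :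
    ThreeDvd h ↔ ∃ h' ∈ CuspForm.intLattice N 2, h = (3 : ℂ) • h' := by
  constructor
  · intro hh
    refine ⟨(3 : ℂ)⁻¹ • h, ?_, ?_⟩
    · rw [mem_intLattice_iff]
      intro n
      obtain ⟨m, hm⟩ := hh n
      exact ⟨m, by rw [qCoeff_smul_cusp, hm]; field_simp⟩
    · rw [smul_smul, mul_inv_cancel₀ (by norm_num : (3 : ℂ) ≠ 0), one_smul]
  · rintro ⟨h', hh', rfl⟩ n
    obtain ⟨m, hm⟩ := (mem_intLattice_iff h').mp hh' n
    exact ⟨m, by rw [qCoeff_smul_cusp, hm]⟩

theorem ThreeDvd.add {g h : CuspForm (Gamma0 N) 2} (hg : ThreeDvd g) (hh : ThreeDvd h) :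
    ThreeDvd (g + h) := by
  intro n
  obtain ⟨a, ha⟩ := hg n
  obtain ⟨b, hb⟩ := hh n
  exact ⟨a + b, by rw [qCoeff_add_cusp, ha, hb]; push_cast; ring⟩

theorem threeDvd_zero : ThreeDvd (0 : CuspForm (Gamma0 N) 2) :=
  fun n => ⟨0, by rw [qCoeff_zero_form]; simp⟩

section Ideal

variable [NeZero N]

/-- The ideal of Hecke operators sending `f` into three times the lattice. -/
noncomputable def modThreeIdeal (f : CuspForm (Gamma0 N) 2) :
    Ideal (CuspForm.heckeAlgebra N 2 ∅) where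
  carrier := {t | ThreeDvd ((t : Module.End ℂ (CuspForm (Gamma0 N) 2)) f)}
  zero_mem' := by
    show ThreeDvd (((0 : CuspForm.heckeAlgebra N 2 ∅) :
      Module.End ℂ (CuspForm (Gamma0 N) 2)) f)
    have : ((0 : CuspForm.heckeAlgebra N 2 ∅) : Module.End ℂ (CuspForm (Gamma0 N) 2)) f = 0 := rfl
    rw [this]
    exact threeDvd_zero
  add_mem' := by
    intro s t hs ht
    show ThreeDvd (((s + t : CuspForm.heckeAlgebra N 2 ∅) :
      Module.End ℂ (CuspForm (Gamma0 N) 2)) f)
    have : ((s + t : CuspForm.heckeAlgebra N 2 ∅) : Module.End ℂ (CuspForm (Gamma0 N) 2)) f =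
      (s : Module.End ℂ (CuspForm (Gamma0 N) 2)) f +
        (t : Module.End ℂ (CuspForm (Gamma0 N) 2)) f := rfl
    rw [this]
    exact ThreeDvd.add hs ht
  smul_mem' := by
    intro s t ht
    show ThreeDvd (((s * t : CuspForm.heckeAlgebra N 2 ∅) :
      Module.End ℂ (CuspForm (Gamma0 N) 2)) f)
    have h1 : ((s * t : CuspForm.heckeAlgebra N 2 ∅) : Module.End ℂ (CuspForm (Gamma0 N) 2)) f =
      (s : Module.End ℂ (CuspForm (Gamma0 N) 2))
        ((t : Module.End ℂ (CuspForm (Gamma0 N) 2)) f) := rfl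
    rw [h1]
    obtain ⟨h', hh', heq⟩ := (threeDvd_iff _).mp ht
    rw [heq, map_smul]
    exact (threeDvd_iff _).mpr ⟨_, CuspForm.mem_intLattice_of_mem_heckeAlgebra (by norm_num) s.2 hh',
      rfl⟩

theorem mem_modThreeIdeal {f : CuspForm (Gamma0 N) 2} {t : CuspForm.heckeAlgebra N 2 ∅} :
    t ∈ modThreeIdeal f ↔ ThreeDvd ((t : Module.End ℂ (CuspForm (Gamma0 N) 2)) f) := Iff.rfl

end Ideal

end Fermat.Agent.S49_helper65
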