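import Mathlib
import Fermat.Agent.S49_helper65.ModThree

set_option autoImplicit false

namespace Fermat.Agent.S49_helper65

open CongruenceSubgroup ModularFormClass UpperHalfPlane EisensteinWeightOne

variable {N : ℕ} [NeZero N]

omit [NeZero N] in
theorem threeDvd_of_int {h : CuspForm (Gamma0 N) 2} (c : ℕ → ℤ)
    (hc : ∀ n, qCoeff h n = (c n : ℂ)) (h3 : ∀ n, (3 : ℤ) ∣ c n) : ThreeDvd h := by
  intro n
  obtain ⟨m, hm⟩ := h3 n
  exact ⟨m, by rw [hc, hm]; push_cast; ring⟩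

section

variable {a : ℕ → ℤ}
  (heig : FormalHecke.IsEigensystem
    (fun ℓ => if ℓ ∣ N then 0 else ((chiNegThree ℓ : ℤ) : ℤ)) a)
  {f : CuspForm (Gamma0 N) 2} {af : ℕ → ℤ} (haf : ∀ n, (af n : ℂ) = qCoeff f n)
  (hcong : ∀ n, (3 : ℤ) ∣ af n - a n)

include heig haf hcong

theorem T_sub_mem_modThreeIdeal {ℓ : ℕ} (hℓ : ℓ.Prime) (hℓN : ¬ ℓ ∣ N) :
    CuspForm.heckeAlgebra.T hℓ hℓN (Set.notMem_empty ℓ) -
      ((a ℓ : ℤ) : CuspForm.heckeAlgebra N 2 ∅) ∈ modThreeIdeal f := by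
  rw [mem_modThreeIdeal]
  have hcoe : ((CuspForm.heckeAlgebra.T hℓ hℓN (Set.notMem_empty ℓ) -
      ((a ℓ : ℤ) : CuspForm.heckeAlgebra N 2 ∅) : CuspForm.heckeAlgebra N 2 ∅) :
        Module.End ℂ (CuspForm (Gamma0 N) 2)) f =
      CuspForm.heckeTLin 2 hℓ hℓN f - (a ℓ : ℤ) • f := by
    simp
  rw [hcoe]
  have hrel := heig.2 ℓ hℓ
  simp only [if_neg hℓN] at hrel
  apply threeDvd_of_int (fun n => af (n * ℓ) + (if ℓ ∣ n then (ℓ : ℤ) * af (n / ℓ) else 0) -
    a ℓ * af n)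
  · intro n
    rw [qCoeff_sub_cusp, qCoeff_zsmul_cusp, qCoeff_heckeTLin]
    simp only [← haf]
    split_ifs <;> push_cast <;> ring
  · intro n
    have h1 := hrel n
    by_cases hd : ℓ ∣ n
    · simp only [if_pos hd] at h1 ⊢
      have key : af (n * ℓ) + (ℓ : ℤ) * af (n / ℓ) - a ℓ * af n =
          (af (n * ℓ) - a (n * ℓ)) + (ℓ : ℤ) * (af (n / ℓ) - a (n / ℓ)) - a ℓ * (af n - a n) +
            ((ℓ : ℤ) - chiNegThree ℓ) * a (n / ℓ) := by
        rw [mul_comm n ℓ]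
        linear_combination h1
      rw [key]
      exact dvd_add (dvd_sub (dvd_add (hcong _) (dvd_mul_of_dvd_right (hcong _) _))
        (dvd_mul_of_dvd_right (hcong _) _))
        (dvd_mul_of_dvd_left (three_dvd_sub_chiNegThree ℓ) _)
    · simp only [if_neg hd, mul_zero, add_zero] at h1 ⊢
      have key : af (n * ℓ) - a ℓ * af n =
          (af (n * ℓ) - a (n * ℓ)) - a ℓ * (af n - a n) := by
        rw [mul_comm n ℓ]
        linear_combination h1
      rw [key]
      exact dvd_sub (hcong _) (dvd_mul_of_dvd_right (hcong _) _)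

theorem U_sub_mem_modThreeIdeal {q : ℕ} (hq : q.Prime) (hqN : q ∣ N) :
    CuspForm.heckeAlgebra.U hq hqN (Set.notMem_empty q) -
      ((a q : ℤ) : CuspForm.heckeAlgebra N 2 ∅) ∈ modThreeIdeal f := by
  rw [mem_modThreeIdeal]
  have hcoe : ((CuspForm.heckeAlgebra.U hq hqN (Set.notMem_empty q) -
      ((a q : ℤ) : CuspForm.heckeAlgebra N 2 ∅) : CuspForm.heckeAlgebra N 2 ∅) :
        Module.End ℂ (CuspForm (Gamma0 N) 2)) f =
      CuspForm.heckeULin 2 hqN f - (a q : ℤ) • f := by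
    simp
  rw [hcoe]
  have hrel := heig.2 q hq
  simp only [if_pos hqN, zero_mul, add_zero] at hrel
  apply threeDvd_of_int (fun n => af (n * q) - a q * af n)
  · intro n
    rw [qCoeff_sub_cusp, qCoeff_zsmul_cusp, qCoeff_heckeULin f hq hqN, ← haf, ← haf]
    push_cast; ring
  · intro n
    have h1 := hrel n
    have key : af (n * q) - a q * af n =
        (af (n * q) - a (n * q)) - a q * (af n - a n) := by
      rw [mul_comm n q]
      linear_combination h1
    rw [key]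
    exact dvd_sub (hcong _) (dvd_mul_of_dvd_right (hcong _) _)

omit heig hcong in
theorem three_mem_modThreeIdeal :
    (3 : CuspForm.heckeAlgebra N 2 ∅) ∈ modThreeIdeal f := by
  rw [mem_modThreeIdeal]
  have hcoe : ((3 : CuspForm.heckeAlgebra N 2 ∅) :
        Module.End ℂ (CuspForm (Gamma0 N) 2)) f = (3 : ℤ) • f := by
    have h1 : ((3 : CuspForm.heckeAlgebra N 2 ∅) : Module.End ℂ (CuspForm (Gamma0 N) 2)) =
        (3 : Module.End ℂ (CuspForm (Gamma0 N) 2)) := rfl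
    have h2 : (3 : Module.End ℂ (CuspForm (Gamma0 N) 2)) =
        ((3 : ℤ) : Module.End ℂ (CuspForm (Gamma0 N) 2)) := by
      norm_num
    rw [h1, h2, Module.End.intCast_apply]
  rw [hcoe]
  apply threeDvd_of_int (fun n => 3 * af n)
  · intro n
    rw [qCoeff_zsmul_cusp, ← haf]
    push_cast; ring
  · intro n
    exact dvd_mul_right _ _

theorem modThreeIdeal_ne_top : modThreeIdeal f ≠ ⊤ := by
  intro htop
  have h1 : (1 : CuspForm.heckeAlgebra N 2 ∅) ∈ modThreeIdeal f := by rw [htop]; trivial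
  rw [mem_modThreeIdeal] at h1
  have hcoe : ((1 : CuspForm.heckeAlgebra N 2 ∅) :
        Module.End ℂ (CuspForm (Gamma0 N) 2)) f = f := rfl
  rw [hcoe] at h1
  obtain ⟨m, hm⟩ := h1 1
  rw [← haf] at hm
  have hm' : af 1 = 3 * m := by exact_mod_cast hm
  have h3 : (3 : ℤ) ∣ a 1 := by
    have := hcong 1
    rw [hm'] at this
    have h4 : (3 : ℤ) ∣ 3 * m - (3 * m - a 1) := dvd_sub (dvd_mul_right _ _) this
    simpa using h4
  rw [heig.1] at h3
  norm_num at h3

end

end Fermat.Agent.S49_helper65
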