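import Mathlib
import Fermat.Agent.S49_helper65.AbstractDS
import Fermat.Agent.S49_helper65.Congruence

set_option autoImplicit false

namespace Fermat.Agent.S49_helper65

open CongruenceSubgroup ModularFormClass UpperHalfPlane EisensteinWeightOne CuspForm

theorem main {N : ℕ} [NeZero N] (h : CuspForm.HasIntegralBasis N) {a : ℕ → ℤ}
    (heig : FormalHecke.IsEigensystem
      (fun ℓ => if ℓ ∣ N then 0 else ((chiNegThree ℓ : ℤ) : ℤ)) a)
    (hreal : CuspForm.IsLatticeRealized N a) :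
    ∃ (f : CuspForm (Gamma0 N) 2) (_ : f.IsNormalizedEigenform)
      (𝔪' : Ideal (integralClosure ℤ ℂ)), 𝔪'.IsMaximal ∧
      ((3 : ℕ) : integralClosure ℤ ℂ) ∈ 𝔪' ∧
      ∀ (ℓ : ℕ) (_ : ℓ.Prime) (_ : ¬ ℓ ∣ N),
        ∃ c : integralClosure ℤ ℂ, (c : ℂ) = ModularFormClass.qCoeff f ℓ ∧
          c - (a ℓ : integralClosure ℤ ℂ) ∈ 𝔪' := by
  obtain ⟨f, _, af, haf, hbridge⟩ := hreal
  have hcong : ∀ n, (3 : ℤ) ∣ af n - a n := by
    intro n
    have h1 := hbridge n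
    have h2 := bridgeProduct_coeff_congr a n
    have : af n - a n = (af n - (bridgeProduct a).coeff n) + ((bridgeProduct a).coeff n - a n) := by
      ring
    rw [this]
    exact dvd_add h1 h2
  have hI : modThreeIdeal f ≠ ⊤ := modThreeIdeal_ne_top heig haf hcong
  obtain ⟨𝔪, h𝔪max, hI𝔪⟩ := Ideal.exists_le_maximal _ hI
  have hfd := finiteDimensional_of_hasIntegralBasis h
  let φ : CuspForm.heckeAlgebra N 2 ∅ →+* Module.End ℂ (CuspForm (Gamma0 N) 2) :=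
    (CuspForm.heckeAlgebra N 2 ∅).val.toRingHom
  have hφ : Function.Injective φ := Subtype.val_injective
  have hint : ∀ t : CuspForm.heckeAlgebra N 2 ∅, IsIntegral ℤ t := by
    intro t
    obtain ⟨p, hp, hpt⟩ := heckeAlgebra_isIntegral h t
    refine ⟨p, hp, ?_⟩
    rw [← hpt]
    congr 1
  obtain ⟨g, θ, 𝔪', hg0, hθ, h𝔪', hcomap⟩ := abstract_deligne_serre φ hφ hint 𝔪
  let θ' : ℕ → ℂ := fun p =>
    if hp : p.Prime then
      (if hpN : p ∣ N then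
        ((θ (CuspForm.heckeAlgebra.U hp hpN (Set.notMem_empty p)) : integralClosure ℤ ℂ) : ℂ)
      else ((θ (CuspForm.heckeAlgebra.T hp hpN (Set.notMem_empty p)) : integralClosure ℤ ℂ) : ℂ))
    else 0
  have hT : ∀ (ℓ : ℕ) (hℓ : ℓ.Prime) (hℓN : ¬ ℓ ∣ N),
      CuspForm.heckeTLin 2 hℓ hℓN g = θ' ℓ • g := by
    intro ℓ hℓ hℓN
    simp only [θ', dif_pos hℓ, dif_neg hℓN]
    exact hθ (CuspForm.heckeAlgebra.T hℓ hℓN (Set.notMem_empty ℓ))
  have hU : ∀ (q : ℕ) (_ : q.Prime) (hqN : q ∣ N),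
      CuspForm.heckeULin 2 hqN g = θ' q • g := by
    intro q hq hqN
    simp only [θ', dif_pos hq, dif_pos hqN]
    exact hθ (CuspForm.heckeAlgebra.U hq hqN (Set.notMem_empty q))
  obtain ⟨f', hf'eig, hf'coeff⟩ := exists_normalizedEigenform_of_eigenvector g hg0 θ' hT hU
  refine ⟨f', hf'eig, 𝔪', h𝔪', ?_, ?_⟩
  · have h3 : (3 : CuspForm.heckeAlgebra N 2 ∅) ∈ 𝔪 := hI𝔪 (three_mem_modThreeIdeal haf)
    rw [← hcomap, Ideal.mem_comap, map_ofNat] at h3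
    exact_mod_cast h3
  · intro ℓ hℓ hℓN
    refine ⟨θ (CuspForm.heckeAlgebra.T hℓ hℓN (Set.notMem_empty ℓ)), ?_, ?_⟩
    · rw [hf'coeff ℓ hℓ]
      simp only [θ', dif_pos hℓ, dif_neg hℓN]
    · have hmem : CuspForm.heckeAlgebra.T hℓ hℓN (Set.notMem_empty ℓ) -
          ((a ℓ : ℤ) : CuspForm.heckeAlgebra N 2 ∅) ∈ 𝔪 :=
        hI𝔪 (T_sub_mem_modThreeIdeal heig haf hcong hℓ hℓN)
      rw [← hcomap, Ideal.mem_comap, map_sub, map_intCast] at hmem
      exact hmem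

end Fermat.Agent.S49_helper65
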